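import Fermat.Agent.RT.LocalQ.Points

/-!
# The local lemmas at `q ≠ p` for a `GaloisRepAdic`

Translation of residual tameness, of unramifiedness and of unipotent inertia into statements about
the two matrices at `σ` and `F` of a `TamePair`.
-/

set_option autoImplicit false

noncomputable section

open IsLocalRing Polynomial
open scoped TensorProduct

namespace Fermat.Agent.RT

open Deformation (Mat IsCont matOf mapRep matOf_baseChange matOf_apply isCont_matOf)

local notation "Qb" => AlgebraicClosure ℚ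
local notation "Γℚ" => (AlgebraicClosure ℚ ≃ₐ[ℚ] AlgebraicClosure ℚ)

variable {A : Type} [CommRing A] [IsLocalRing A] {p q : ℕ}

/-- The reduced matrices are the matrices of the residual representation. -/
theorem map_matOf_eq_residual (ρ : GaloisRepAdic A) (b : Module.Basis (Fin 2) A ρ.V) (τ : Γℚ) :
    (matOf ρ.ρ b τ).map (residue A) =
      matOf ρ.residual.ρ (Algebra.TensorProduct.basis (ResidueField A) b) τ :=
  (matOf_baseChange (ResidueField A) ρ.ρ b ρ.residual.ρ (fun _ => rfl) τ).symm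

theorem matOf_eq_one_iff {k V : Type} [CommRing k] [AddCommGroup V] [Module k V]
    (ρ : Γℚ →* Module.End k V) (b : Module.Basis (Fin 2) k V) (τ : Γℚ) :
    matOf ρ b τ = 1 ↔ ρ τ = 1 := by
  show LinearMap.toMatrixAlgEquiv b (ρ τ) = 1 ↔ _
  exact map_eq_one_iff _ (LinearMap.toMatrixAlgEquiv b).injective

/-- Residual tameness from `p`-power order of residual inertia. -/
theorem isResTame_matOf (ρ : GaloisRepAdic A) (b : Module.Basis (Fin 2) A ρ.V)
    {P : ValuationSubring Qb}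
    (h : ∀ τ ∈ P.inertiaSubgroupIn ℚ, ∃ j : ℕ, ρ.residual.ρ τ ^ p ^ j = 1) :
    IsResTame p P (matOf ρ.ρ b) := by
  intro τ hτ
  obtain ⟨j, hj⟩ := h τ hτ
  refine ⟨j, ?_⟩
  rw [← map_pow, map_matOf_eq_residual]
  exact (matOf_eq_one_iff ρ.residual.ρ _ _).2 (by rw [map_pow, hj])

/-- Residually unramified at `q`. -/
theorem residual_pow_eq_one_of_isUnramifiedAt {ρ : GaloisRepAdic A} {P : ValuationSubring Qb}
    (hP : P.LiesOverPrime q) (h : ρ.residual.IsUnramifiedAt q) :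
    ∀ τ ∈ P.inertiaSubgroupIn ℚ, ∃ j : ℕ, ρ.residual.ρ τ ^ p ^ j = 1 :=
  fun τ hτ => ⟨0, by rw [pow_zero, pow_one]; exact h P hP τ hτ⟩

/-- Residual `p`-power order transfers along an equivalence. -/
theorem pow_eq_one_of_isEquiv {k : Type} [Field k] {ρ₁ ρ₂ : ResidualGaloisRep k}
    (he : ρ₁.IsEquiv ρ₂) {τ : Γℚ} {n : ℕ} (h : ρ₂.ρ τ ^ n = 1) : ρ₁.ρ τ ^ n = 1 := by
  obtain ⟨e⟩ := he
  rw [← map_pow] at h ⊢
  refine LinearMap.ext fun x => e.toLinearEquiv.injective ?_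
  rw [e.map_apply, h]; rfl

/-- Residual `p`-power order transfers along extension of the coefficient field. -/
theorem pow_eq_one_of_baseChangeAlong {k k' : Type} [Field k] [Field k'] (ψ : k →+* k')
    (ρ : ResidualGaloisRep k) {τ : Γℚ} {n : ℕ} (h : ρ.ρ τ ^ n = 1) :
    (ρ.baseChangeAlong ψ).ρ τ ^ n = 1 := by
  let : Algebra k k' := ψ.toAlgebra
  rw [← map_pow] at h ⊢
  show (ρ.ρ (τ ^ n)).baseChange k' = 1
  rw [h, LinearMap.baseChange_one]

variable [IsHausdorff (maximalIdeal A) A]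

/-- Unramified at `q` means `σ` acts trivially. -/
theorem TamePair.isUnramifiedAt_iff (T : TamePair p q) (hp : p.Prime) (hq : q.Prime) (hpq : p ≠ q)
    (hpA : (p : A) ∈ maximalIdeal A) (ρ : GaloisRepAdic A) (b : Module.Basis (Fin 2) A ρ.V)
    (h : ∀ τ ∈ T.A.inertiaSubgroupIn ℚ, ∃ j : ℕ, ρ.residual.ρ τ ^ p ^ j = 1) :
    ρ.IsUnramifiedAt q ↔ ρ.ρ T.σ = 1 := by
  refine ⟨fun hu => hu T.A T.hA T.σ T.hσ, fun hσ P hP τ hτ => (matOf_eq_one_iff ρ.ρ b τ).1 ?_⟩
  exact T.eq_one_of_σ hp hq hpq hpA (isCont_matOf ρ b) (isResTame_matOf ρ b h)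
    ((matOf_eq_one_iff ρ.ρ b _).2 hσ) hP hτ

/-- The two matrices of a representation with cyclotomic determinant: relation and determinants. -/
theorem TamePair.matOf_relations (T : TamePair p q) (hp : p.Prime) (hq : q.Prime) (hpq : p ≠ q)
    (ρ : GaloisRepAdic A) (hdet : ρ.DetIsCyclotomic p) (b : Module.Basis (Fin 2) A ρ.V)
    (h : ∀ τ ∈ T.A.inertiaSubgroupIn ℚ, ∃ j : ℕ, ρ.residual.ρ τ ^ p ^ j = 1) :
    matOf ρ.ρ b T.F * matOf ρ.ρ b T.σ = matOf ρ.ρ b T.σ ^ q * matOf ρ.ρ b T.F ∧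
      (matOf ρ.ρ b T.F).det = (q : A) ∧ (matOf ρ.ρ b T.σ).det = 1 := by
  refine ⟨T.adic_relation hp hq hpq hdet.1 (isCont_matOf ρ b) (isResTame_matOf ρ b h), ?_, ?_⟩
  · rw [matOf_apply, LinearMap.det_toMatrix]
    exact det_eq_natCast_of_isFrobeniusAt hdet hp hq hpq T.hA T.hF
  · rw [matOf_apply, LinearMap.det_toMatrix]
    exact det_eq_one_of_mem_inertia hdet hp hq hpq T.hA T.hσ

omit [IsHausdorff (maximalIdeal A) A] in
/-- Unipotent inertia: the trace of `σ` is `2`. -/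
theorem TamePair.trace_eq_two (T : TamePair p q) (ρ : GaloisRepAdic A)
    (b : Module.Basis (Fin 2) A ρ.V) (h : ρ.IsUnipotentOnInertiaAt q) :
    (matOf ρ.ρ b T.σ).trace = 2 := by
  have hc := h T.A T.hA T.σ T.hσ
  rw [← LinearMap.charpoly_toMatrix (ρ.ρ T.σ) b, Matrix.charpoly_fin_two] at hc
  have := congrArg (coeff · 1) hc
  simp [sub_sq, coeff_X_pow, coeff_X, coeff_C, coeff_one, coeff_ofNat_mul] at this
  rw [matOf_apply]
  linear_combination this

end Fermat.Agent.RT
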