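import Fermat.Agent.RT.LocalQ.TamePair
import Fermat.Agent.Galois.Minkowski
import Fermat.Agent.Density.Splitting

/-!
# The decomposition group is generated by inertia and a Frobenius element, at finite level

Together with `TamePair.inertia_eq_pow`: under a tame finite-level homomorphism the decomposition
group at `q` maps into the products `σ^a F^i`.
-/

set_option autoImplicit false

noncomputable section

open scoped Pointwise NumberField
open Polynomial IsLocalRing

namespace Fermat.Agent.RT

local notation "Qb" => AlgebraicClosure ℚ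
local notation "Γℚ" => (AlgebraicClosure ℚ ≃ₐ[ℚ] AlgebraicClosure ℚ)

local instance : Algebra.IsAlgebraic ℚ Qb := AlgebraicClosure.isAlgebraic ℚ

local instance : IsAlgClosure ℚ Qb := ⟨inferInstance, inferInstance⟩

local instance : IsGalois ℚ Qb := IsAlgClosure.isGalois ℚ Qb

variable {q : ℕ}

/-- A ring endomorphism of a field of characteristic `q` sends an element algebraic over the prime
field, with `μ^(q^f) = μ`, to one of its `q`-power conjugates. -/
theorem exists_apply_eq_pow {k : Type*} [Field k] [CharP k q] (hq : q.Prime) (φ : k →+* k)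
    {μ : k} {f : ℕ} (hf : 0 < f) (hμ : μ ^ q ^ f = μ) : ∃ i : ℕ, φ μ = μ ^ q ^ i := by
  have := Fact.mk hq
  set P : k[X] := ∏ i ∈ Finset.range f, (X - C (μ ^ q ^ i)) with hP
  have hPfrob : P.map (frobenius k q) = P := by
    simp only [hP, Polynomial.map_prod, Polynomial.map_sub, map_X, map_C, frobenius_def, ← pow_mul,
      ← pow_succ]
    have h := (Finset.prod_range_succ (fun i => (X - C (μ ^ q ^ i) : k[X])) f).symm.trans
      (Finset.prod_range_succ' (fun i => (X - C (μ ^ q ^ i) : k[X])) f)
    rw [pow_zero, pow_one, hμ] at h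
    exact (mul_right_cancel₀ (X_sub_C_ne_zero μ) h).symm
  have hPφ : P.map φ = P := by
    ext n
    rw [coeff_map]
    have h1 : P.coeff n ^ q = P.coeff n := by
      conv_rhs => rw [← hPfrob]
      rw [coeff_map, frobenius_def]
    exact (bot_le : (⊥ : Subfield k) ≤ φ.eqLocusField (RingHom.id k))
      ((Subfield.mem_bot_iff_pow_eq_self (F := k) (p := q)).2 h1)
  have hroot : P.eval μ = 0 := by
    rw [hP, eval_prod]
    exact Finset.prod_eq_zero (Finset.mem_range.2 hf) (by simp)
  have h2 : P.eval (φ μ) = 0 := by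
    rw [← hPφ, eval_map, eval₂_hom, hroot, map_zero]
  rw [hP, eval_prod, Finset.prod_eq_zero_iff] at h2
  obtain ⟨i, -, hi⟩ := h2
  exact ⟨i, by simpa [sub_eq_zero] using hi⟩

/-- An element of the decomposition group agrees with an inertia element times a power of
Frobenius at any finite level. -/
theorem exists_inertia_mul_frobenius_pow {H : Type*} [Group H] (f : Γℚ →* H)
    (hfin : ∃ L : IntermediateField ℚ Qb, FiniteDimensional ℚ L ∧
      ∀ τ : Γℚ, (∀ x ∈ L, τ x = x) → f τ = 1)
    (hq : q.Prime) {A : ValuationSubring Qb} (hA : A.LiesOverPrime q) {F : Γℚ}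
    (hF : A.IsFrobeniusAt F q) {τ : Γℚ} (hτ : τ ∈ A.decompositionSubgroup ℚ) :
    ∃ s ∈ A.inertiaSubgroupIn ℚ, ∃ i : ℕ, f τ = f F ^ i * f s := by
  classical
  obtain ⟨L, hL, hker⟩ := hfin
  let K : IntermediateField ℚ Qb := IntermediateField.normalClosure ℚ L Qb
  have : Normal ℚ K := normalClosure.normal ℚ L _
  have : FiniteDimensional ℚ K := normalClosure.is_finiteDimensional ℚ L _
  have : IsGalois ℚ K := ⟨⟩
  have : NumberField K := { }
  have := EC.charP_residueField A hq hA
  let g : 𝓞 K →+* ResidueField A := (residue A).comp (Density.intToValuationSubring K A)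
  have hgker : RingHom.ker g = Density.center K A := by
    ext x
    rw [RingHom.mem_ker, RingHom.comp_apply, residue_eq_zero_iff]
    rfl
  have : Finite g.range := by
    have := Density.finite_quotient_of_natCast_mem (K := K) hq (Q := RingHom.ker g)
      (by rw [hgker]; exact Density.natCast_mem_center hA)
    exact Finite.of_equiv _ g.quotientKerEquivRange.toEquiv
  obtain ⟨u, hu⟩ := IsCyclic.exists_generator (α := g.rangeˣ)
  obtain ⟨m, hm0, hm⟩ := EC.exists_pow_q_pow_eq_self A hq hA ((u : g.range) : ResidueField A)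
  let d : A.decompositionSubgroup ℚ := ⟨τ, hτ⟩
  obtain ⟨i, hi⟩ := exists_apply_eq_pow hq
    (MulSemiringAction.toRingHom (A.decompositionSubgroup ℚ) (ResidueField A) d) hm0 hm
  rw [MulSemiringAction.toRingHom_apply] at hi
  let φ : A.decompositionSubgroup ℚ := ⟨F, hF.mem_decompositionSubgroup⟩
  have hφ : ∀ (j : ℕ) (y : ResidueField A), φ ^ j • y = y ^ q ^ j := by
    intro j y
    induction j with
    | zero => simp
    | succ j ih =>
      rw [pow_succ', mul_smul, ih, smul_pow', show φ • y = y ^ q from hF.smul_residue_eq y,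
        ← pow_mul, pow_succ']
  -- `τ` and `F^i` agree on the residues of `K`
  have hres : ∀ x : 𝓞 K, d • g x = (φ ^ i) • g x := by
    intro x
    by_cases hx : g x = 0
    · rw [hx, smul_zero, smul_zero]
    let y : g.range := ⟨g x, x, rfl⟩
    have hy : IsUnit y := by
      have := Fintype.ofFinite g.range
      let := Fintype.fieldOfDomain g.range
      exact isUnit_iff_ne_zero.2 fun h => hx (congrArg Subtype.val h)
    obtain ⟨e, he⟩ := (mem_powers_iff_mem_zpowers (x := u)).2 (hu hy.unit)
    have he' : ((u : g.range) : ResidueField A) ^ e = g x := by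
      have := congrArg (fun w : g.rangeˣ => ((w : g.range) : ResidueField A)) he
      simpa using this
    rw [← he', smul_pow', smul_pow', hi, hφ]
  let π := AlgEquiv.restrictNormalHom (F := ℚ) (K₁ := Qb) K
  have hinert : π (τ * (F ^ i)⁻¹) ∈ Ideal.inertia Gal(K/ℚ) (Galois.placePrime K A) := by
    intro x
    show π (τ * (F ^ i)⁻¹) • x - x ∈ Galois.placePrime K A
    obtain ⟨w, rfl⟩ : ∃ w, π (F ^ i) • w = x := ⟨(π (F ^ i))⁻¹ • x, smul_inv_smul _ _⟩
    rw [← mul_smul, ← map_mul, inv_mul_cancel_right, Galois.mem_placePrime_iff]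
    have h : residue A (d • Density.intToValuationSubring K A w) =
        residue A ((φ ^ i) • Density.intToValuationSubring K A w) := by
      rw [ResidueField.residue_smul, ResidueField.residue_smul]
      exact hres w
    rw [Density.residue_eq_iff] at h
    convert h using 1
    have hc : ∀ (s : Γℚ), (((π s • w : 𝓞 K) : K) : Qb) = s ((w : K) : Qb) := fun s =>
      AlgEquiv.restrictNormal_commutes s K (w : K)
    show (((π τ • w : 𝓞 K) : K) : Qb) - (((π (F ^ i) • w : 𝓞 K) : K) : Qb) = _
    rw [hc, hc]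
    rfl
  obtain ⟨s, hs, hsπ⟩ := Galois.exists_mem_inertia_restrict K A hq hA hinert
  have hle : π.ker ≤ f.ker := fun σ hσ => MonoidHom.mem_ker.mpr <| hker σ fun x hx => by
    have hxK : x ∈ K := IntermediateField.le_normalClosure L hx
    have h2 := AlgEquiv.restrictNormal_commutes σ K ⟨x, hxK⟩
    rw [show AlgEquiv.restrictNormal σ K = π σ from rfl, MonoidHom.mem_ker.mp hσ] at h2
    exact h2.symm
  have hmul : f (s * (F ^ i)) = f τ := by
    have h : s * F ^ i * τ⁻¹ ∈ π.ker := by
      rw [MonoidHom.mem_ker, map_mul, map_mul]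
      show AlgEquiv.restrictNormalHom K s * _ * _ = _
      rw [hsπ, ← map_mul, ← map_mul, inv_mul_cancel_right, mul_inv_cancel, map_one]
    have := MonoidHom.mem_ker.1 (hle h)
    rwa [map_mul, map_inv, mul_inv_eq_one] at this
  refine ⟨(F ^ i)⁻¹ * s * F ^ i, ?_, i, ?_⟩
  · have hFd := (A.decompositionSubgroup ℚ).pow_mem hF.mem_decompositionSubgroup i
    exact Density.conj_inv_mem_inertiaSubgroupIn (A := A)
      (by rw [MulAction.mem_stabilizer_iff.1 hFd]; exact hs)
  · rw [← hmul, map_mul, map_mul, map_mul, map_inv, map_pow]; group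

namespace TamePair

variable {p : ℕ} (T : TamePair p q) {H : Type*} [Group H] {f : Γℚ →* H}

/-- The decomposition group maps into the products `σ^a F^i`. -/
theorem decomposition_eq (hp : p.Prime) (hq : q.Prime) (hpq : p ≠ q) (hf : IsTameAt p T.A f)
    {τ : Γℚ} (hτ : τ ∈ T.A.decompositionSubgroup ℚ) :
    ∃ a i : ℕ, f τ = f T.σ ^ a * f T.F ^ i := by
  obtain ⟨s, hs, i, hi⟩ := exists_inertia_mul_frobenius_pow f hf.finite_level hq T.hA T.hF hτ
  obtain ⟨b, hb⟩ := T.inertia_eq_pow hp hq hpq hf hs
  have hFσ := T.map_F_mul_σ hp hq hpq hf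
  have h1 : ∀ b : ℕ, f T.F * f T.σ ^ b = f T.σ ^ (q * b) * f T.F := by
    intro b
    rw [pow_mul]
    exact (SemiconjBy.pow_right (show SemiconjBy (f T.F) (f T.σ) (f T.σ ^ q) from hFσ) b)
  have h2 : ∀ i b : ℕ, f T.F ^ i * f T.σ ^ b = f T.σ ^ (q ^ i * b) * f T.F ^ i := by
    intro i
    induction i with
    | zero => simp
    | succ i ih =>
      intro b
      rw [pow_succ, mul_assoc, h1, ← mul_assoc, ih, mul_assoc, pow_succ, mul_assoc (q ^ i)]
  exact ⟨q ^ i * b, i, by rw [hi, hb, h2]⟩

end TamePair

end Fermat.Agent.RT
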