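import Fermat.Agent.RT.LocalQ.Adic
import Fermat.Agent.EC.Det.CyclotomicChar
import Mathlib.FieldTheory.IsAlgClosed.AlgebraicClosure
import Mathlib.LinearAlgebra.Matrix.Charpoly.Coeff
import Mathlib.RingTheory.LocalRing.Basic

/-!
# Matrices of points at a prime `q ≡ 1 (mod p)`

With cyclotomic determinant: `det (r σ) = 1` on inertia and `det (r F) = q`.  Over a domain, a
residually tame, non-unipotent `Σ` with `Φ Σ = Σ ^ q Φ` has eigenvalues `ζ, ζ⁻¹` of exact order
`p ^ k`, `1 ≤ k`, `p ^ k ∣ q - 1`, and commutes with `Φ`.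
-/

set_option autoImplicit false

noncomputable section

open IsLocalRing Polynomial

namespace Fermat.Agent.RT

open Deformation (Mat IsCont matOf mapRep)

local notation "Qb" => AlgebraicClosure ℚ
local notation "Γℚ" => (AlgebraicClosure ℚ ≃ₐ[ℚ] AlgebraicClosure ℚ)

section Det

variable {A : Type} [CommRing A] [IsLocalRing A] {ρ : GaloisRepAdic A} {p q : ℕ}

/-- A cyclotomic determinant is `1` on inertia away from `p`. -/
theorem det_eq_one_of_mem_inertia [IsHausdorff (maximalIdeal A) A] (hdet : ρ.DetIsCyclotomic p)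
    (hp : p.Prime) (hq : q.Prime) (hpq : p ≠ q) {P : ValuationSubring Qb} (hP : P.LiesOverPrime q)
    {τ : Γℚ} (hτ : τ ∈ P.inertiaSubgroupIn ℚ) : LinearMap.det (ρ.ρ τ) = 1 := by
  rw [← sub_eq_zero]
  refine IsHausdorff.haus ‹_› _ fun n => ?_
  rw [SModEq.zero, smul_eq_mul, Ideal.mul_top]
  have : NeZero (p ^ n) := ⟨pow_ne_zero n hp.ne_zero⟩
  have hqn : ¬ q ∣ p ^ n := fun h =>
    hpq ((Nat.prime_dvd_prime_iff_eq hq hp).1 (hq.dvd_of_dvd_pow h)).symm
  have h := hdet.2 n τ 1 fun μ hμ => by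
    rw [pow_one]; exact inertia_apply_rootOfUnity hq hqn hP hτ hμ
  rw [Nat.cast_one] at h
  refine (Ideal.span_singleton_le_iff_mem _).2 ?_ h
  rw [Nat.cast_pow]
  exact Ideal.pow_mem_pow hdet.1 n

/-- A cyclotomic determinant is `q` at a Frobenius element at `q`. -/
theorem det_eq_natCast_of_isFrobeniusAt [IsHausdorff (maximalIdeal A) A]
    (hdet : ρ.DetIsCyclotomic p) (hp : p.Prime) (hq : q.Prime) (hpq : p ≠ q)
    {P : ValuationSubring Qb} (hP : P.LiesOverPrime q) {F : Γℚ} (hF : P.IsFrobeniusAt F q) :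
    LinearMap.det (ρ.ρ F) = (q : A) := by
  rw [← sub_eq_zero]
  refine IsHausdorff.haus ‹_› _ fun n => ?_
  rw [SModEq.zero, smul_eq_mul, Ideal.mul_top]
  have : NeZero (p ^ n) := ⟨pow_ne_zero n hp.ne_zero⟩
  have hqn : ¬ q ∣ p ^ n := fun h =>
    hpq ((Nat.prime_dvd_prime_iff_eq hq hp).1 (hq.dvd_of_dvd_pow h)).symm
  have h := hdet.2 n F q fun μ hμ => by
    rw [EC.apply_eq_pow_cycloChar _ F hμ, EC.cycloChar_eq_of_isFrobeniusAt hq hqn hP hF,
      ZMod.val_natCast, ← pow_eq_pow_mod q hμ]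
  refine (Ideal.span_singleton_le_iff_mem _).2 ?_ h
  rw [Nat.cast_pow]
  exact Ideal.pow_mem_pow hdet.1 n

end Det

section Algebra

variable {K : Type*} [CommRing K] [Nontrivial K] {S : Matrix (Fin 2) (Fin 2) K}

theorem sq_eq_of_det_eq_one (hdet : S.det = 1) : S * S = S.trace • S - 1 := by
  have h := Matrix.aeval_self_charpoly S
  rw [Matrix.charpoly_fin_two, hdet] at h
  simp only [map_sub, map_add, map_mul, map_pow, aeval_X, aeval_C, map_one,
    Algebra.algebraMap_eq_smul_one, smul_mul_assoc, one_mul] at h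
  rw [eq_sub_iff_add_eq, ← sub_eq_zero, ← h, pow_two]
  abel

variable {x y : K}

theorem trace_pow_eq (hdet : S.det = 1) (ht : x + y = S.trace) (hxy : x * y = 1) (n : ℕ) :
    (S ^ n).trace = x ^ n + y ^ n := by
  induction n using Nat.twoStepInduction with
  | zero => simp [Matrix.trace_one]; norm_num
  | one => simp [ht]
  | more n ih₁ ih₂ =>
    have h : S ^ (n + 2) = S.trace • S ^ (n + 1) - S ^ n := by
      rw [pow_add, pow_two, sq_eq_of_det_eq_one hdet, mul_sub, mul_smul_comm, ← pow_succ, mul_one]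
    rw [h, Matrix.trace_sub, Matrix.trace_smul, ih₁, ih₂, smul_eq_mul, ← ht]
    linear_combination (x ^ n + y ^ n) * hxy

theorem sub_smul_pow_succ (hdet : S.det = 1) (ht : x + y = S.trace) (hxy : x * y = 1) (n : ℕ) :
    (x - y) • S ^ (n + 1) = (x ^ (n + 1) - y ^ (n + 1)) • S - (x ^ n - y ^ n) • 1 := by
  induction n with
  | zero => simp
  | succ n ih =>
    rw [pow_succ S (n + 1), ← smul_mul_assoc, ih, sub_mul, smul_mul_assoc, smul_mul_assoc,
      one_mul, sq_eq_of_det_eq_one hdet, smul_sub, smul_smul, sub_sub, sub_eq_sub_iff_add_eq_add,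
      ← ht]
    match_scalars
    · linear_combination (x ^ n - y ^ n) * hxy
    · ring

end Algebra

variable {V : Type} [CommRing V] [IsDomain V] [IsLocalRing V]

/-- **Non-unipotent tame inertia over a domain.** -/
theorem exists_order_of_not_unipotent {p q : ℕ} (hp : p.Prime) (hp2 : p ≠ 2)
    (hpV : (p : V) ∈ maximalIdeal V) (hq : (q : V) ≠ 0) (hq1 : p ∣ q - 1) (hq2 : 1 < q)
    {Φ S : Mat V} (hS : S.det = 1) (hΦ : Φ.det = (q : V)) (hrel : Φ * S = S ^ q * Φ)
    (htame : ∃ j : ℕ, (S ^ p ^ j).map (residue V) = 1) (hne : S.trace ≠ 2) :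
    ∃ k : ℕ, 0 < k ∧ p ^ k ∣ q - 1 ∧ S ^ p ^ k = 1 ∧ S ^ p ^ (k - 1) ≠ 1 ∧ S ^ q = S ∧
      Φ * S = S * Φ ∧ ∀ z : V, IsPrimitiveRoot z (p ^ k) →
        ∃ e < p ^ k, ¬ p ∣ e ∧ S.trace = z ^ e + z ^ (p ^ k - e) := by
  classical
  let K := AlgebraicClosure (FractionRing V)
  let i : V →+* K := (algebraMap (FractionRing V) K).comp (algebraMap V (FractionRing V))
  have hi : Function.Injective i :=
    (algebraMap (FractionRing V) K).injective.comp (IsFractionRing.injective V (FractionRing V))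
  let S' : Matrix (Fin 2) (Fin 2) K := i.mapMatrix S
  have hS' : S'.det = 1 := by rw [← RingHom.map_det, hS, map_one]
  have hS'pow : ∀ n : ℕ, (S' ^ n).trace = i (S ^ n).trace := fun n => by
    rw [← map_pow, RingHom.mapMatrix_apply]; exact (AddMonoidHom.map_trace i.toAddMonoidHom _).symm
  obtain ⟨x, hx⟩ := IsAlgClosed.exists_root (X ^ 2 - C S'.trace * X + 1 : K[X]) (by
    rw [show (X ^ 2 - C S'.trace * X + 1 : K[X]) =
      C 1 * X ^ 2 + C (-S'.trace) * X + C 1 by simp; ring, degree_quadratic one_ne_zero]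
    decide)
  simp only [IsRoot, eval_add, eval_sub, eval_pow, eval_X, eval_mul, eval_C, eval_one] at hx
  have hx0 : x ≠ 0 := by rintro rfl; simp at hx
  have hxy : x * x⁻¹ = 1 := mul_inv_cancel₀ hx0
  have ht : x + x⁻¹ = S'.trace := by
    apply mul_right_cancel₀ hx0
    rw [add_mul, inv_mul_cancel₀ hx0]
    linear_combination hx
  have hxyn : ∀ n : ℕ, x ^ n * x⁻¹ ^ n = 1 := fun n => by rw [← mul_pow, hxy, one_pow]
  -- the trace of `S ^ q`
  have htrq : (S ^ q).trace = S.trace := by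
    have h := congrArg Matrix.trace (show Φ.adjugate * (Φ * S) = Φ.adjugate * (S ^ q * Φ) by rw [hrel])
    rw [← mul_assoc, Matrix.adjugate_mul, hΦ, smul_mul_assoc, one_mul, Matrix.trace_smul,
      Matrix.trace_mul_comm, mul_assoc, Matrix.mul_adjugate, hΦ, mul_smul_comm, mul_one,
      Matrix.trace_smul] at h
    exact (mul_left_cancel₀ hq h).symm
  have hxq : x ^ q + (x⁻¹) ^ q = x + x⁻¹ := by
    rw [← trace_pow_eq hS' ht hxy, hS'pow, htrq, ht]
    exact (AddMonoidHom.map_trace i.toAddMonoidHom S)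
  -- residual facts
  obtain ⟨j, hj⟩ := htame
  set Sb : Mat (ResidueField V) := (residue V).mapMatrix S
  have hSb : Sb ^ p ^ j = 1 := by rw [← map_pow]; exact hj
  have : CharP (ResidueField V) p := (CharP.charP_iff_prime_eq_zero hp).2 (by
    rw [← map_natCast (residue V), residue_eq_zero_iff]; exact hpV)
  have := Fact.mk hp
  have htr2 : residue V S.trace = 2 := by
    have hnil : IsNilpotent (Sb - 1) :=
      ⟨p ^ j, by rw [sub_pow_char_pow_of_commute (p := p) (n := j) (Commute.one_right Sb), one_pow, hSb, sub_self]⟩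
    have h := isNilpotent_iff_eq_zero.1 (Matrix.isNilpotent_trace_of_isNilpotent hnil)
    rw [Matrix.trace_sub, Matrix.trace_one, sub_eq_zero, Fintype.card_fin, Nat.cast_ofNat] at h
    rw [← h]
    exact AddMonoidHom.map_trace (residue V).toAddMonoidHom S
  have h4 : (4 : ResidueField V) ≠ 0 := fun h => by
    have h' : ((4 : ℕ) : ResidueField V) = 0 := by exact_mod_cast h
    rw [CharP.cast_eq_zero_iff _ p] at h'
    exact hp2 ((Nat.prime_dvd_prime_iff_eq hp Nat.prime_two).1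
      (hp.dvd_of_dvd_pow (show p ∣ 2 ^ 2 from h')))
  have htrm : S.trace ≠ -2 := fun h => by
    refine h4 ?_
    rw [h, map_neg, map_ofNat] at htr2
    linear_combination -htr2
  have hdist : x ≠ x⁻¹ := by
    intro h
    have hsq : (x - 1) * (x + 1) = 0 := by
      have : x * x = 1 := (congrArg (x * ·) h).trans hxy
      linear_combination this
    have htt : i S.trace = x + x := by
      rw [show x + x = x + x⁻¹ from congrArg (x + ·) h, ht]; exact AddMonoidHom.map_trace i.toAddMonoidHom S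
    rcases mul_eq_zero.1 hsq with h1 | h1
    · refine hne (hi ?_)
      rw [htt, map_ofNat, sub_eq_zero.1 h1]; norm_num
    · refine htrm (hi ?_)
      rw [htt, map_neg, map_ofNat, eq_neg_of_add_eq_zero_left h1]; norm_num
  have hfix : ∀ m : ℕ, 0 < m → x ^ m = 1 → S ^ m = 1 := by
    intro m hm hxm
    obtain ⟨l, rfl⟩ := Nat.exists_eq_add_one_of_ne_zero hm.ne'
    apply Matrix.map_injective hi
    show i.mapMatrix (S ^ (l + 1)) = i.mapMatrix 1
    rw [map_pow, map_one]
    have h := sub_smul_pow_succ hS' ht hxy l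
    have hym : (x⁻¹) ^ (l + 1) = 1 := by rw [inv_pow, hxm, inv_one]
    have e1 : x ^ l = x⁻¹ := eq_inv_of_mul_eq_one_left (by rw [← pow_succ, hxm])
    have e2 : (x⁻¹) ^ l = x := by rw [inv_pow, e1, inv_inv]
    rw [hxm, hym, sub_self, zero_smul, zero_sub, e1, e2, ← neg_smul, neg_sub] at h
    exact (smul_right_injective _ (sub_ne_zero.2 hdist)) h
  -- `x ^ (q - 1) = 1` or `x ^ (q + 1) = 1`
  have hcase : x ^ (q - 1) = 1 ∨ x ^ (q + 1) = 1 := by
    have hq' : x ^ q ≠ 0 := pow_ne_zero q hx0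
    have : (x ^ q - x) * (x ^ q * x - 1) = 0 := by
      linear_combination (x ^ q * x) * hxq - x * hxyn q + x ^ q * hxy
    rcases mul_eq_zero.1 this with h | h
    · left
      refine mul_right_cancel₀ hx0 ?_
      rw [← pow_succ, Nat.sub_add_cancel hq2.le, one_mul]
      exact sub_eq_zero.1 h
    · right; rw [pow_succ]; exact sub_eq_zero.1 h
  -- `x` has `p`-power order
  have hxp : ∃ a, x ^ p ^ a = 1 := by
    obtain ⟨m, hm, hxm⟩ : ∃ m, 0 < m ∧ x ^ m = 1 :=
      hcase.elim (fun h => ⟨q - 1, by omega, h⟩) fun h => ⟨q + 1, by omega, h⟩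
    obtain ⟨a, m', hm', rfl⟩ := Nat.exists_eq_pow_mul_and_not_dvd hm.ne' p hp.ne_one
    refine ⟨a, ?_⟩
    set Y := S ^ p ^ a with hY
    have hYm : Y ^ m' = 1 := by rw [hY, ← pow_mul]; exact hfix _ hm hxm
    have hYb : (residue V).mapMatrix Y = 1 := by
      have h1 : (residue V).mapMatrix Y ^ m' = 1 := by rw [← map_pow, hYm, map_one]
      have h2 : (residue V).mapMatrix Y ^ p ^ j = 1 := by
        rw [hY, map_pow, ← pow_mul, mul_comm, pow_mul, hSb, one_pow]
      have := pow_gcd_eq_one.mpr ⟨h2, h1⟩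
      rwa [(Nat.Coprime.pow_left j ((hp.coprime_iff_not_dvd).mpr hm')).gcd_eq_one, pow_one] at this
    have hsum : IsUnit (∑ l ∈ Finset.range m', Y ^ l).det := by
      refine notMem_maximalIdeal.1 fun h => hm' ?_
      rw [← residue_eq_zero_iff, RingHom.map_det, map_sum] at h
      simp only [map_pow, hYb, one_pow, Finset.sum_const, Finset.card_range] at h
      rw [← Nat.cast_smul_eq_nsmul (ResidueField V), Matrix.det_smul, Matrix.det_one, mul_one,
        Fintype.card_fin, pow_eq_zero_iff two_ne_zero, CharP.cast_eq_zero_iff _ p] at h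
      exact h
    have hY1 : Y = 1 := by
      have h := geom_sum_mul Y m'
      rw [hYm, sub_self] at h
      exact sub_eq_zero.1 (((Matrix.isUnit_iff_isUnit_det _).2 hsum).mul_right_eq_zero.1 h)
    have h := trace_pow_eq hS' ht hxy (p ^ a)
    rw [hS'pow, ← hY, hY1, Matrix.trace_one, Fintype.card_fin, Nat.cast_ofNat, map_ofNat] at h
    have h0 : (x ^ p ^ a - 1) ^ 2 = 0 := by linear_combination -(x ^ p ^ a) * h - hxyn (p ^ a)
    exact sub_eq_zero.1 ((pow_eq_zero_iff two_ne_zero).1 h0)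
  obtain ⟨a, ha⟩ := hxp
  obtain ⟨k, -, hk⟩ := (Nat.dvd_prime_pow hp).1 (orderOf_dvd_of_pow_eq_one ha)
  have hk0 : 0 < k := by
    refine Nat.pos_of_ne_zero fun h => hdist ?_
    rw [h, pow_zero, orderOf_eq_one_iff] at hk
    rw [hk, inv_one]
  have hprim : IsPrimitiveRoot x (p ^ k) := hk ▸ IsPrimitiveRoot.orderOf x
  have hdvd : p ^ k ∣ q - 1 := by
    rcases hcase with h | h
    · exact hprim.dvd_of_pow_eq_one _ h
    · exfalso
      have h1 : p ∣ q + 1 := (dvd_pow_self p hk0.ne').trans (hprim.dvd_of_pow_eq_one _ h)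
      have h2 : p ∣ 2 := by
        have := Nat.dvd_sub h1 hq1
        rwa [show q + 1 - (q - 1) = 2 by omega] at this
      exact hp2 ((Nat.prime_dvd_prime_iff_eq hp Nat.prime_two).1 h2)
  have hSk : S ^ p ^ k = 1 := hfix _ (pow_pos hp.pos k) hprim.pow_eq_one
  have hSq : S ^ q = S := by
    obtain ⟨d, hd⟩ := hdvd
    rw [show q = p ^ k * d + 1 by omega, pow_succ, pow_mul, hSk, one_pow, one_mul]
  refine ⟨k, hk0, hdvd, hSk, fun h => ?_, hSq, by rw [hrel, hSq], fun z hz => ?_⟩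
  · have h' := trace_pow_eq hS' ht hxy (p ^ (k - 1))
    rw [hS'pow, h, Matrix.trace_one, Fintype.card_fin, Nat.cast_ofNat, map_ofNat] at h'
    have h0 : (x ^ p ^ (k - 1) - 1) ^ 2 = 0 := by
      linear_combination -(x ^ p ^ (k - 1)) * h' - hxyn (p ^ (k - 1))
    have := hprim.dvd_of_pow_eq_one _ (sub_eq_zero.1 ((pow_eq_zero_iff two_ne_zero).1 h0))
    rw [Nat.pow_dvd_pow_iff_le_right hp.one_lt] at this
    omega
  · have hz' : IsPrimitiveRoot (i z) (p ^ k) := hz.map_of_injective hi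
    have : NeZero (p ^ k) := ⟨pow_ne_zero _ hp.ne_zero⟩
    obtain ⟨e, he, hxe⟩ := hz'.eq_pow_of_pow_eq_one hprim.pow_eq_one
    refine ⟨e, he, fun hpe => ?_, hi ?_⟩
    · obtain ⟨d, rfl⟩ := hpe
      have h1 : x ^ p ^ (k - 1) = 1 := by
        rw [← hxe, ← pow_mul, show p * d * p ^ (k - 1) = p ^ (k - 1 + 1) * d by ring,
          Nat.sub_add_cancel hk0, pow_mul, hz'.pow_eq_one, one_pow]
      have := hprim.dvd_of_pow_eq_one _ h1
      rw [Nat.pow_dvd_pow_iff_le_right hp.one_lt] at this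
      omega
    · rw [map_add, map_pow, map_pow, hxe]
      have : i z ^ (p ^ k - e) = x⁻¹ := eq_inv_of_mul_eq_one_left (by
        rw [← hxe, ← pow_add, Nat.sub_add_cancel he.le, hz'.pow_eq_one])
      rw [this, ht]
      exact AddMonoidHom.map_trace i.toAddMonoidHom S

/-- The twisted condition of `LocalParam.IsPoint`: `z * tr Σ = z * z + 1` for a nontrivial
`p ^ m`-th root of unity `z`, once `V` contains a primitive one. -/
theorem exists_root_trace_of_not_unipotent {p q m : ℕ} (hp : p.Prime) (hp2 : p ≠ 2)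
    (hpV : (p : V) ∈ maximalIdeal V) (hq : (q : V) ≠ 0) (hq1 : p ∣ q - 1) (hq2 : 1 < q)
    {Φ S : Mat V} (hS : S.det = 1) (hΦ : Φ.det = (q : V)) (hrel : Φ * S = S ^ q * Φ)
    (htame : ∃ j : ℕ, (S ^ p ^ j).map (residue V) = 1) (hne : S.trace ≠ 2)
    (hm : S ^ p ^ m = 1 ∨ ∀ k, p ^ k ∣ q - 1 → k ≤ m) {ζ : V} (hζ : IsPrimitiveRoot ζ (p ^ m)) :
    Φ * S = S * Φ ∧ ∃ z : V, z ^ p ^ m = 1 ∧ z ≠ 1 ∧ z * S.trace = z * z + 1 := by
  obtain ⟨k, hk0, hdvd, hSk, hSk', -, hcomm, hz⟩ :=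
    exists_order_of_not_unipotent hp hp2 hpV hq hq1 hq2 hS hΦ hrel htame hne
  have hkm : k ≤ m := by
    rcases hm with h | h
    · by_contra hlt
      obtain ⟨d, hd⟩ := Nat.exists_eq_add_of_le (show m ≤ k - 1 by omega)
      exact hSk' (by rw [hd, pow_add, pow_mul, h, one_pow])
    · exact h k hdvd
  have hpow : p ^ m = p ^ (m - k) * p ^ k := by rw [← pow_add, Nat.sub_add_cancel hkm]
  have hζk : IsPrimitiveRoot (ζ ^ p ^ (m - k)) (p ^ k) := hζ.pow (pow_pos hp.pos m) hpow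
  obtain ⟨e, he, hpe, htr⟩ := hz _ hζk
  refine ⟨hcomm, (ζ ^ p ^ (m - k)) ^ e, ?_, ?_, ?_⟩
  · rw [pow_right_comm, pow_right_comm ζ, hζ.pow_eq_one, one_pow, one_pow]
  · intro h1
    exact hpe ((dvd_pow_self p hk0.ne').trans (hζk.dvd_of_pow_eq_one e h1))
  · rw [htr, mul_add, ← pow_add, ← pow_add, Nat.add_sub_cancel' he.le,
      hζk.pow_eq_one]

end Fermat.Agent.RT
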