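import Fermat.Agent.RT.Tame
import Fermat.Agent.EC.Det.CyclotomicChar
import Fermat.Agent.EC.Mult.Ramification
import Fermat.Agent.Density.Conj
import Mathlib.GroupTheory.Perm.Basic

/-!
# The tame quotient of a decomposition group at `q ≠ p`

A `TamePair p q` fixes a place of `ℚ̄` over `q`, an inertia element `σ` moving `q^(1/p)` and a
Frobenius element `F`.  Under any finite-level homomorphism with `p`-power inertia image, the image
of inertia consists of powers of `σ`, `F σ = σ^q F`, and the decomposition group maps into the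
products `σ^a F^i`.
-/

set_option autoImplicit false

noncomputable section

open scoped Pointwise

namespace Fermat.Agent.RT

local notation "Qb" => AlgebraicClosure ℚ
local notation "Γℚ" => (AlgebraicClosure ℚ ≃ₐ[ℚ] AlgebraicClosure ℚ)

local instance : Algebra.IsAlgebraic ℚ Qb := AlgebraicClosure.isAlgebraic ℚ

local instance : IsAlgClosure ℚ Qb := ⟨inferInstance, inferInstance⟩

local instance : IsGalois ℚ Qb := IsAlgClosure.isGalois ℚ Qb

/-- Generators of the `p`-tame quotient of a decomposition group at `q`. -/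
structure TamePair (p q : ℕ) where
  A : ValuationSubring Qb
  hA : A.LiesOverPrime q
  σ : Γℚ
  hσ : σ ∈ A.inertiaSubgroupIn ℚ
  F : Γℚ
  hF : A.IsFrobeniusAt F q
  root : Qb
  root_pow : root ^ p = (q : Qb)
  moves : σ root ≠ root

/-- A homomorphism of finite level with `p`-power image of inertia at `A`. -/
structure IsTameAt {M : Type*} [Monoid M] (p : ℕ) (A : ValuationSubring Qb) (f : Γℚ →* M) :
    Prop where
  finite_level : ∃ L : IntermediateField ℚ Qb, FiniteDimensional ℚ L ∧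
    ∀ τ : Γℚ, (∀ x ∈ L, τ x = x) → f τ = 1
  inertia_pow : ∀ τ ∈ A.inertiaSubgroupIn ℚ, ∃ j : ℕ, f τ ^ p ^ j = 1

theorem exists_tamePair {p q : ℕ} (hp : p.Prime) (hq : q.Prime) (hpq : p ≠ q)
    (A : ValuationSubring Qb) (hA : A.LiesOverPrime q) : ∃ T : TamePair p q, T.A = A := by
  obtain ⟨b, hb⟩ := IsAlgClosed.exists_pow_nat_eq (q : Qb) hp.pos
  have hb0 : b ≠ 0 := by
    rintro rfl
    rw [zero_pow hp.ne_zero] at hb
    exact Nat.cast_ne_zero.2 hq.ne_zero hb.symm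
  obtain ⟨σ, hσ, hne, -, -⟩ := EC.Mult.exists_mem_inertia_valuation_div_sub_one hq hA hp hpq hb0
    (n := 1) (by rw [← map_pow, hb, zpow_one])
    (fun h => hp.not_dvd_one (by exact_mod_cast h)) (fun τ _ => by rw [hb, map_natCast])
  obtain ⟨F, hF⟩ := Galois.exists_isFrobeniusAt A hq hA
  exact ⟨⟨A, hA, σ, hσ, F, hF, b, hb, hne⟩, rfl⟩

/-- Inertia at `q ∤ n` fixes `n`-th roots of unity. -/
theorem inertia_apply_rootOfUnity {q n : ℕ} [NeZero n] (hq : q.Prime) (hn : ¬ q ∣ n)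
    {A : ValuationSubring Qb} (hA : A.LiesOverPrime q) {τ : Γℚ}
    (hτ : τ ∈ A.inertiaSubgroupIn ℚ) {z : Qb} (hz : z ^ n = 1) : τ z = z := by
  rw [EC.apply_eq_pow_cycloChar n τ hz, EC.cycloChar_eq_one_of_mem_inertia hq hn hA hτ,
    Units.val_one, ZMod.val_one_eq_one_mod, ← pow_eq_pow_mod 1 hz, pow_one]

variable {p q : ℕ}

/-- The `p^m`-th roots of `q`. -/
abbrev Radicals (p q m : ℕ) : Type := {r : Qb // r ^ p ^ m = (q : Qb)}

/-- The permutation action on radicals. -/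
def radicalPerm (p q m : ℕ) : Γℚ →* Equiv.Perm (Radicals p q m) where
  toFun τ :=
    { toFun := fun r => ⟨τ r.1, by rw [← map_pow, r.2, map_natCast]⟩
      invFun := fun r => ⟨τ⁻¹ r.1, by rw [← map_pow, r.2, map_natCast]⟩
      left_inv := fun r => Subtype.ext (τ.symm_apply_apply r.1)
      right_inv := fun r => Subtype.ext (τ.apply_symm_apply r.1) }
  map_one' := rfl
  map_mul' _ _ := rfl

theorem finite_radicals (hp : p.Prime) (m : ℕ) : Set.Finite {r : Qb | r ^ p ^ m = (q : Qb)} := by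
  have h : (Polynomial.X ^ p ^ m - Polynomial.C (q : Qb)) ≠ 0 :=
    Polynomial.X_pow_sub_C_ne_zero (pow_pos hp.pos m) _
  refine (Polynomial.finite_setOfPred_isRoot h).subset fun r hr => ?_
  simpa [sub_eq_zero] using hr

namespace TamePair

variable (T : TamePair p q) {H : Type*} [Group H] {f : Γℚ →* H}

/-- `f` enlarged by the action on radicals. -/
theorem exists_pow_inertia (hp : p.Prime) (hq : q.Prime) (hpq : p ≠ q) (hf : IsTameAt p T.A f)
    (m : ℕ) {τ : Γℚ} (hτ : τ ∈ T.A.inertiaSubgroupIn ℚ) :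
    ∃ b : ℕ, f τ = f T.σ ^ b ∧ ∀ r : Qb, r ^ p ^ (m + 1) = (q : Qb) → τ r = (T.σ ^ b) r := by
  classical
  let g : Γℚ →* H × Equiv.Perm (Radicals p q (m + 1)) := f.prod (radicalPerm p q (m + 1))
  have hqn : ∀ i : ℕ, ¬ q ∣ p ^ i := fun i h =>
    hpq ((Nat.prime_dvd_prime_iff_eq hq hp).1 (hq.dvd_of_dvd_pow h)).symm
  have hfin : ∃ L : IntermediateField ℚ Qb, FiniteDimensional ℚ L ∧
      ∀ τ : Γℚ, (∀ x ∈ L, τ x = x) → g τ = 1 := by
    obtain ⟨L, hL, hker⟩ := hf.finite_level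
    have := (finite_radicals (q := q) hp (m + 1)).to_subtype
    let R := IntermediateField.adjoin ℚ {r : Qb | r ^ p ^ (m + 1) = (q : Qb)}
    have : FiniteDimensional ℚ R := IntermediateField.finiteDimensional_adjoin
      fun x _ => Algebra.IsIntegral.isIntegral x
    refine ⟨L ⊔ R, inferInstance, fun τ hτ => Prod.ext ?_ (Equiv.ext fun r => Subtype.ext ?_)⟩
    · exact hker τ fun x hx => hτ x ((le_sup_left : L ≤ L ⊔ R) hx)
    · exact hτ r.1 ((le_sup_right : R ≤ L ⊔ R) (IntermediateField.subset_adjoin ℚ _ r.2))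
  have hroots : ∀ (i : ℕ) (τ : Γℚ), τ ∈ T.A.inertiaSubgroupIn ℚ → ∀ r : Qb,
      r ^ p ^ i = (q : Qb) → (τ ^ p ^ i) r = r := by
    intro i τ hτ r hr
    have : NeZero (p ^ i) := ⟨pow_ne_zero i hp.ne_zero⟩
    have hr0 : r ≠ 0 := by
      rintro rfl
      rw [zero_pow (pow_ne_zero i hp.ne_zero)] at hr
      exact Nat.cast_ne_zero.2 hq.ne_zero hr.symm
    have hz : (τ r / r) ^ p ^ i = 1 := by
      rw [div_pow, ← map_pow, hr, map_natCast, div_self (Nat.cast_ne_zero.2 hq.ne_zero)]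
    have hzfix := inertia_apply_rootOfUnity hq (hqn i) T.hA hτ hz
    have hk : ∀ k : ℕ, (τ ^ k) r = (τ r / r) ^ k * r := by
      intro k
      induction k with
      | zero => simp
      | succ k ih =>
        rw [pow_succ' τ, AlgEquiv.mul_apply, ih, map_mul, map_pow, hzfix, pow_succ, mul_assoc,
          div_mul_cancel₀ _ hr0]
    rw [hk, hz, one_mul]
  have hpow : ∀ τ ∈ T.A.inertiaSubgroupIn ℚ, ∃ j : ℕ, g τ ^ p ^ j = 1 := by
    intro τ hτ
    obtain ⟨j, hj⟩ := hf.inertia_pow τ hτ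
    refine ⟨j + (m + 1), Prod.ext ?_ (Equiv.ext fun r => Subtype.ext ?_)⟩
    · rw [Prod.pow_fst, pow_add, pow_mul]
      show (f τ ^ p ^ j) ^ p ^ (m + 1) = 1
      rw [hj, one_pow]
    · rw [← map_pow]
      show ((τ ^ p ^ (j + (m + 1))) : Γℚ) r.1 = r.1
      rw [pow_add, mul_comm, pow_mul]
      have := hroots (m + 1) τ hτ r.1 r.2
      generalize τ ^ p ^ (m + 1) = τ' at this ⊢
      generalize p ^ j = k
      induction k with
      | zero => rfl
      | succ k ih => rw [pow_succ, AlgEquiv.mul_apply, this, ih]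
  have hcyc := isCyclic_map_inertiaSubgroupIn g hfin hp hq hpq T.hA hpow
  obtain ⟨z, hz⟩ := hcyc.exists_generator
  obtain ⟨τ₀, hτ₀, hτ₀z⟩ := Subgroup.mem_map.1 z.2
  obtain ⟨j₀, hj₀⟩ := hpow τ₀ hτ₀
  have hgen : ∀ τ ∈ T.A.inertiaSubgroupIn ℚ, ∃ a : ℕ, g τ = g τ₀ ^ a := by
    intro τ hτ
    have hmem := hz ⟨g τ, Subgroup.mem_map_of_mem g hτ⟩
    have hfo : IsOfFinOrder z := isOfFinOrder_iff_pow_eq_one.2
      ⟨p ^ j₀, pow_pos hp.pos _, Subtype.ext (by rw [Subgroup.coe_pow, ← hτ₀z, hj₀]; rfl)⟩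
    obtain ⟨a, ha⟩ := hfo.mem_powers_iff_mem_zpowers.2 hmem
    exact ⟨a, by simpa [hτ₀z] using (congrArg Subtype.val ha).symm⟩
  obtain ⟨a, ha⟩ := hgen T.σ T.hσ
  have hpa : ¬ p ∣ a := by
    rintro ⟨c, rfl⟩
    apply T.moves
    obtain ⟨r, hr⟩ := IsAlgClosed.exists_pow_nat_eq T.root (pow_pos hp.pos m)
    have hr' : r ^ p ^ (m + 1) = (q : Qb) := by rw [pow_succ, pow_mul, hr, T.root_pow]
    have h2 : T.σ r = ((τ₀ ^ p) ^ c) r := by
      rw [← pow_mul]
      rw [← map_pow] at ha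
      exact congrArg Subtype.val (Equiv.ext_iff.1 (congrArg Prod.snd ha) ⟨r, hr'⟩)
    have h3 : ∀ k : ℕ, ((τ₀ ^ p) ^ k) T.root = T.root := by
      intro k
      induction k with
      | zero => rfl
      | succ k ih =>
        rw [pow_succ, AlgEquiv.mul_apply]
        have := hroots 1 τ₀ hτ₀ T.root (by rw [pow_one]; exact T.root_pow)
        rw [pow_one] at this
        rw [this, ih]
    rw [← hr, map_pow, h2, ← map_pow, hr, h3]
  obtain ⟨c, hc⟩ := exists_pow_eq_self_of_coprime (x := g τ₀) (n := a) (by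
    refine Nat.Coprime.coprime_dvd_right (orderOf_dvd_of_pow_eq_one hj₀) ?_
    exact (Nat.Coprime.pow_right j₀ ((hp.coprime_iff_not_dvd.2 hpa).symm)))
  obtain ⟨b, hb⟩ := hgen τ hτ
  refine ⟨c * b, ?_, fun r hr => ?_⟩
  · have h := congrArg Prod.fst (hb.trans (by rw [← hc, ← ha, ← pow_mul]) : g τ = g T.σ ^ (c * b))
    exact h
  · have h : g τ = g (T.σ ^ (c * b)) := by rw [hb, map_pow, ha, pow_mul, hc]
    exact congrArg Subtype.val (Equiv.ext_iff.1 (congrArg Prod.snd h) ⟨r, hr⟩)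

/-- Inertia maps to powers of `σ`. -/
theorem inertia_eq_pow (hp : p.Prime) (hq : q.Prime) (hpq : p ≠ q) (hf : IsTameAt p T.A f)
    {τ : Γℚ} (hτ : τ ∈ T.A.inertiaSubgroupIn ℚ) : ∃ b : ℕ, f τ = f T.σ ^ b :=
  (T.exists_pow_inertia hp hq hpq hf 0 hτ).imp fun _ h => h.1

/-- The tame relation `F σ = σ^q F`. -/
theorem map_F_mul_σ (hp : p.Prime) (hq : q.Prime) (hpq : p ≠ q) (hf : IsTameAt p T.A f) :
    f T.F * f T.σ = f T.σ ^ q * f T.F := by
  obtain ⟨j, hj⟩ := hf.inertia_pow T.σ T.hσ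
  have hτ : T.F * T.σ * T.F⁻¹ ∈ T.A.inertiaSubgroupIn ℚ := by
    have hF := T.hF.mem_decompositionSubgroup
    have := Density.conj_inv_mem_inertiaSubgroupIn (A := T.A) (τ := T.σ) (a := T.F⁻¹)
      (by rw [MulAction.mem_stabilizer_iff.1 ((T.A.decompositionSubgroup ℚ).inv_mem hF)]; exact T.hσ)
    rwa [inv_inv] at this
  obtain ⟨b, hb, hbr⟩ := T.exists_pow_inertia hp hq hpq hf j hτ
  obtain ⟨r, hr⟩ := IsAlgClosed.exists_pow_nat_eq T.root (pow_pos hp.pos j)
  have hr' : r ^ p ^ (j + 1) = (q : Qb) := by rw [pow_succ, pow_mul, hr, T.root_pow]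
  have hr0 : r ≠ 0 := by
    rintro rfl
    rw [zero_pow (pow_ne_zero _ hp.ne_zero)] at hr'
    exact Nat.cast_ne_zero.2 hq.ne_zero hr'.symm
  have : NeZero (p ^ (j + 1)) := ⟨pow_ne_zero _ hp.ne_zero⟩
  have hqn : ¬ q ∣ p ^ (j + 1) := fun h =>
    hpq ((Nat.prime_dvd_prime_iff_eq hq hp).1 (hq.dvd_of_dvd_pow h)).symm
  set ζ := T.σ r / r with hζdef
  have hζ1 : ζ ^ p ^ (j + 1) = 1 := by
    rw [div_pow, ← map_pow, hr', map_natCast, div_self (Nat.cast_ne_zero.2 hq.ne_zero)]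
  have hζne : ¬ ζ ^ p ^ j = 1 := by
    rw [div_pow, ← map_pow, hr, div_eq_one_iff_eq]
    · exact T.moves
    · intro h
      have := T.root_pow
      rw [h, zero_pow hp.ne_zero] at this
      exact Nat.cast_ne_zero.2 hq.ne_zero this.symm
  have hprim : IsPrimitiveRoot ζ (p ^ (j + 1)) := by
    have := Fact.mk hp
    rw [IsPrimitiveRoot.iff_orderOf]
    exact orderOf_eq_prime_pow hζne hζ1
  have hpowσ : ∀ k : ℕ, (T.σ ^ k) r = ζ ^ k * r := by
    intro k
    induction k with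
    | zero => simp
    | succ k ih =>
      rw [pow_succ' T.σ, AlgEquiv.mul_apply, ih, map_mul, map_pow,
        inertia_apply_rootOfUnity hq hqn T.hA T.hσ hζ1, pow_succ, mul_assoc, hζdef,
        div_mul_cancel₀ _ hr0]
  have hFζ : T.F ζ = ζ ^ q := by
    rw [EC.apply_eq_pow_cycloChar _ T.F hζ1, EC.cycloChar_eq_of_isFrobeniusAt hq hqn T.hA T.hF,
      ZMod.val_natCast, ← pow_eq_pow_mod q hζ1]
  -- another radical, with the same Kummer character
  have hr'' : (T.F⁻¹ r) ^ p ^ (j + 1) = (q : Qb) := by rw [← map_pow, hr', map_natCast]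
  have hw : (T.F⁻¹ r / r) ^ p ^ (j + 1) = 1 := by
    rw [div_pow, hr'', hr', div_self (Nat.cast_ne_zero.2 hq.ne_zero)]
  have hσr'' : T.σ (T.F⁻¹ r) = ζ * T.F⁻¹ r := by
    conv_lhs => rw [← div_mul_cancel₀ (T.F⁻¹ r) hr0]
    rw [map_mul, inertia_apply_rootOfUnity hq hqn T.hA T.hσ hw, hζdef]
    field_simp
  have h1 := hbr r hr'
  rw [AlgEquiv.mul_apply, AlgEquiv.mul_apply, hσr'', map_mul, hFζ, hpowσ,
    show T.F (T.F⁻¹ r) = r from T.F.apply_symm_apply r] at h1
  have hmod : q ≡ b [MOD p ^ (j + 1)] := by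
    have h := mul_right_cancel₀ hr0 h1
    have hu := (hprim.isUnit (pow_ne_zero _ hp.ne_zero))
    have e := pow_eq_pow_iff_modEq.1 (show hu.unit ^ q = hu.unit ^ b from Units.ext h)
    rwa [← (hprim.isUnit_unit (pow_ne_zero _ hp.ne_zero)).eq_orderOf] at e
  have hσb : f T.σ ^ b = f T.σ ^ q := by
    refine pow_eq_pow_iff_modEq.2 (Nat.ModEq.of_dvd ?_ hmod.symm)
    exact (orderOf_dvd_of_pow_eq_one hj).trans (pow_dvd_pow p (Nat.le_succ j))
  rw [← hσb, ← hb, map_mul, map_mul, map_inv, inv_mul_cancel_right]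

end TamePair

end Fermat.Agent.RT
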