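import Fermat.Agent.RT.LocalQ.Adic
import Mathlib.RingTheory.Henselian
import Mathlib.LinearAlgebra.Matrix.Charpoly.Coeff

/-!
# Lifts at Taylor–Wiles primes are diagonal on the decomposition group

For `q ≡ 1 (mod p)` with residual inertia trivial and residual Frobenius eigenvalues `α ≠ β`, a
continuous lift over a complete local ring is conjugate to a sum of two characters on the
decomposition group; on `σ` they take values `≡ 1` killed by `q - 1`.
-/

set_option autoImplicit false

noncomputable section

open IsLocalRing Polynomial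

namespace Fermat.Agent.RT

open Deformation (Mat IsCont matOf mapRep)

local notation "Qb" => AlgebraicClosure ℚ
local notation "Γℚ" => (AlgebraicClosure ℚ ≃ₐ[ℚ] AlgebraicClosure ℚ)

section Eigen

/-- Cayley–Hamilton for a two by two matrix, factored. -/
theorem mul_sub_eigen {A : Type} [CommRing A] [Nontrivial A] {M : Mat A} {a b : A}
    (ht : a + b = M.trace) (hd : a * b = M.det) :
    M * (M - b • 1) = a • (M - b • 1) := by
  have h := Matrix.aeval_self_charpoly M
  rw [Matrix.charpoly_fin_two] at h
  simp only [map_sub, map_add, map_mul, map_pow, aeval_X, aeval_C,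
    Algebra.algebraMap_eq_smul_one, smul_mul_assoc, one_mul] at h
  rw [← sub_eq_zero, ← h, ← ht, ← hd, mul_sub, mul_smul_comm, mul_one, pow_two, smul_sub,
    smul_smul, add_smul]
  abel

variable {A : Type} [CommRing A] [IsLocalRing A]

/-- Powers of a matrix `≡ 1`: the off-diagonal entries are multiples of those of the matrix. -/
theorem pow_offdiag_eq {N : Mat A} (hN : N.map (residue A) = 1) (n : ℕ) :
    ∃ h h' : A, (N ^ n) 0 1 = N 0 1 * h ∧ (N ^ n) 1 0 = N 1 0 * h' ∧
      residue A h = (n : ResidueField A) ∧ residue A h' = (n : ResidueField A) := by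
  induction n with
  | zero => exact ⟨0, 0, by simp, by simp, by simp, by simp⟩
  | succ n ih =>
    obtain ⟨h, h', e, e', eh, eh'⟩ := ih
    have hNn : ∀ i : Fin 2, residue A ((N ^ n) i i) = 1 ∧ residue A (N i i) = 1 := fun i => by
      refine ⟨?_, by simpa using congrFun (congrFun hN i) i⟩
      have : (N ^ n).map (residue A) = 1 := by
        rw [← RingHom.mapMatrix_apply, map_pow, RingHom.mapMatrix_apply, hN, one_pow]
      simpa using congrFun (congrFun this i) i
    refine ⟨(N ^ n) 0 0 + h * N 1 1, h' * N 0 0 + (N ^ n) 1 1, ?_, ?_, ?_, ?_⟩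
    · rw [pow_succ, Matrix.mul_apply, Fin.sum_univ_two, e]; ring
    · rw [pow_succ, Matrix.mul_apply, Fin.sum_univ_two, e']; ring
    · rw [map_add, map_mul, (hNn 0).1, (hNn 1).2, eh]; push_cast; ring
    · rw [map_add, map_mul, (hNn 0).2, (hNn 1).1, eh']; push_cast; ring

/-- Diagonalisation of a matrix with residually distinct eigenvalues. -/
theorem exists_diagonalise [IsAdicComplete (maximalIdeal A) A] {M : Mat A}
    {α β : ResidueField A} (hαβ : α ≠ β) (ht : α + β = residue A M.trace)
    (hd : α * β = residue A M.det) :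
    ∃ (a b : A) (u : (Mat A)ˣ), residue A a = α ∧ residue A b = β ∧
      M * (u : Mat A) = (u : Mat A) * Matrix.diagonal ![a, b] := by
  classical
  obtain ⟨a₀, ha₀⟩ := residue_surjective (R := A) α
  set f : A[X] := X ^ 2 - C M.trace * X + C M.det with hf
  have hmonic : f.Monic := by
    rw [hf, ← Matrix.charpoly_fin_two]; exact Matrix.charpoly_monic M
  obtain ⟨a, hroot, ha⟩ := HenselianRing.is_henselian (I := maximalIdeal A) f hmonic a₀ (by
      rw [← residue_eq_zero_iff]
      simp only [hf, eval_add, eval_sub, eval_pow, eval_X, eval_mul, eval_C, map_add, map_sub,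
        map_pow, map_mul, ha₀, ← ht, ← hd]
      ring) (by
      show IsUnit (residue A (f.derivative.eval a₀))
      refine isUnit_iff_ne_zero.2 fun h => sub_ne_zero.2 hαβ ?_
      simp only [hf, derivative_X_pow, derivative_mul,
        derivative_C, derivative_X, eval_add, eval_sub, eval_mul, eval_pow, eval_C, eval_X,
        eval_zero, eval_one, map_add, map_sub, map_mul, map_pow, ha₀, ← ht] at h
      push_cast at h
      simp only [map_ofNat, map_zero, map_one] at h
      linear_combination h)
  have haα : residue A a = α := by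
    rw [← ha₀, ← sub_eq_zero, ← map_sub, residue_eq_zero_iff]; exact ha
  set b := M.trace - a with hb
  have hbβ : residue A b = β := by rw [hb, map_sub, ← ht, haα]; ring
  have hsum : a + b = M.trace := by rw [hb]; ring
  have hprod : a * b = M.det := by
    simp only [hf, IsRoot, eval_add, eval_sub, eval_pow, eval_X, eval_mul, eval_C] at hroot
    rw [hb]; linear_combination -hroot
  set P := M - b • (1 : Mat A)
  set Q := M - a • (1 : Mat A)
  have hP : M * P = a • P := mul_sub_eigen hsum hprod
  have hQ : M * Q = b • Q := mul_sub_eigen (by rw [add_comm]; exact hsum)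
    (by rw [mul_comm]; exact hprod)
  have hne : ∀ c : A, residue A c + residue A c ≠ residue A M.trace →
      ∃ i j, residue A ((M - c • (1 : Mat A)) i j) ≠ 0 := by
    intro c hc
    by_contra! hall
    refine hc ?_
    have h0 := hall 0 0
    have h1 := hall 1 1
    simp only [Matrix.sub_apply, Matrix.smul_apply, Matrix.one_apply_eq, smul_eq_mul, mul_one,
      map_sub, sub_eq_zero] at h0 h1
    rw [Matrix.trace_fin_two, map_add, h0, h1]
  obtain ⟨i, j, hij⟩ := hne b fun h => hαβ (by rw [hbβ, ← ht] at h; linear_combination -h)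
  obtain ⟨k, l, hkl⟩ := hne a fun h => hαβ (by rw [haα, ← ht] at h; linear_combination h)
  let U : Mat A := Matrix.of fun s t => ![P s j, Q s l] t
  have hMU : M * U = U * Matrix.diagonal ![a, b] := by
    ext s t
    rw [Matrix.mul_diagonal, Matrix.mul_apply]
    fin_cases t
    · have := congrFun (congrFun hP s) j
      rw [Matrix.mul_apply, Matrix.smul_apply, smul_eq_mul, mul_comm] at this
      simpa [U] using this
    · have := congrFun (congrFun hQ s) l
      rw [Matrix.mul_apply, Matrix.smul_apply, smul_eq_mul, mul_comm] at this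
      simpa [U] using this
  have hU : IsUnit U.det := by
    refine notMem_maximalIdeal.1 fun hmem => ?_
    rw [← residue_eq_zero_iff, Matrix.det_fin_two, map_sub, map_mul, map_mul, sub_eq_zero] at hmem
    simp only [U, Matrix.of_apply, Matrix.cons_val_zero, Matrix.cons_val_one] at hmem
    let v : Fin 2 → ResidueField A := fun s => residue A (P s j)
    let w : Fin 2 → ResidueField A := fun s => residue A (Q s l)
    have hvw : ∀ s t, v s * w t = v t * w s := by
      intro s t
      fin_cases s <;> fin_cases t <;> simp only [v, w, Fin.zero_eta, Fin.mk_one] <;>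
        first | rfl | linear_combination hmem | linear_combination -hmem
    have hMv : ∀ s, ∑ t, residue A (M s t) * v t = α * v s := fun s => by
      have := congrArg (residue A) (congrFun (congrFun hP s) j)
      rw [Matrix.mul_apply, Matrix.smul_apply, smul_eq_mul, map_sum, map_mul, haα] at this
      simpa [v] using this
    have hMw : ∀ s, ∑ t, residue A (M s t) * w t = β * w s := fun s => by
      have := congrArg (residue A) (congrFun (congrFun hQ s) l)
      rw [Matrix.mul_apply, Matrix.smul_apply, smul_eq_mul, map_sum, map_mul, hbβ] at this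
      simpa [w] using this
    have h0 : v i * w k = 0 := by
      have h1 : α * v i * w k = β * v i * w k := by
        rw [← hMv, Finset.sum_mul,
          Finset.sum_congr rfl fun t _ => show residue A (M i t) * v t * w k =
            residue A (M i t) * w t * v k by rw [mul_assoc, hvw, mul_assoc, mul_comm (v k)],
          ← Finset.sum_mul, hMw, mul_assoc, mul_comm (w i), hvw k i, mul_assoc]
      have : (α - β) * (v i * w k) = 0 := by linear_combination h1
      exact (mul_eq_zero.1 this).resolve_left (sub_ne_zero.2 hαβ)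
    rcases mul_eq_zero.1 h0 with h | h
    · exact hij h
    · exact hkl h
  exact ⟨a, b, ((Matrix.isUnit_iff_isUnit_det _).2 hU).unit, haα, hbβ, hMU⟩

end Eigen

variable {A : Type} [CommRing A] [IsLocalRing A] [IsAdicComplete (maximalIdeal A) A] {p q : ℕ}

/-- **The restriction to the decomposition group at a Taylor–Wiles prime is diagonal.** -/
theorem TamePair.exists_diagonal (T : TamePair p q) (hp : p.Prime) (hq : q.Prime) (hpq : p ≠ q)
    (hq1 : p ∣ q - 1) (hpA : (p : A) ∈ maximalIdeal A) {r : Γℚ →* Mat A} (hr : IsCont r)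
    (hI : ∀ τ ∈ T.A.inertiaSubgroupIn ℚ, (r τ).map (residue A) = 1)
    {α β : ResidueField A} (hαβ : α ≠ β) (ht : α + β = residue A (r T.F).trace)
    (hd : α * β = residue A (r T.F).det) :
    ∃ (u : (Mat A)ˣ) (χ₁ χ₂ : T.A.decompositionSubgroup ℚ →* Aˣ),
      (∀ τ : T.A.decompositionSubgroup ℚ,
        ((u⁻¹ : (Mat A)ˣ) : Mat A) * r τ * u = Matrix.diagonal ![(χ₁ τ : A), (χ₂ τ : A)]) ∧
      residue A (χ₁ ⟨T.F, T.hF.mem_decompositionSubgroup⟩) = α ∧
      residue A (χ₂ ⟨T.F, T.hF.mem_decompositionSubgroup⟩) = β ∧
      ∀ τ : T.A.decompositionSubgroup ℚ, (τ : Γℚ) = T.σ →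
        χ₁ τ ^ (q - 1) = 1 ∧ χ₂ τ ^ (q - 1) = 1 ∧
        residue A (χ₁ τ) = 1 ∧ residue A (χ₂ τ) = 1 := by
  obtain ⟨a, b, u, ha, hb, hMu⟩ := exists_diagonalise hαβ ht hd
  set c : Γℚ → Mat A := fun τ => ((u⁻¹ : (Mat A)ˣ) : Mat A) * r τ * u with hcdef
  have hcmul : ∀ s t, c (s * t) = c s * c t := fun s t => by
    simp only [hcdef, map_mul, mul_assoc, Units.mul_inv_cancel_left]
  have hcF : c T.F = Matrix.diagonal ![a, b] := by
    show _ * r T.F * (u : Mat A) = _
    rw [mul_assoc, hMu, Units.inv_mul_cancel_left]
  have hab : IsUnit a ∧ IsUnit b := by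
    have h : IsUnit (a * b) := by
      rw [show a * b = (c T.F).det by rw [hcF, Matrix.det_diagonal, Fin.prod_univ_two]; rfl]
      exact ((Matrix.isUnit_iff_isUnit_det _).1 (isUnit_iff_exists.2
        ⟨c T.F⁻¹, by rw [← hcmul, mul_inv_cancel]; simp [hcdef],
          by rw [← hcmul, inv_mul_cancel]; simp [hcdef]⟩))
    exact IsUnit.mul_iff.1 h
  have htame : IsResTame p T.A r := isResTame_of_residual_eq_one hI
  have hrel := T.adic_relation hp hq hpq hpA hr htame
  set N := c T.σ with hN
  have hNres : N.map (residue A) = 1 := by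
    show (_ * r T.σ * (u : Mat A)).map (residue A) = 1
    rw [Matrix.map_mul, Matrix.map_mul, hI _ T.hσ, mul_one, ← Matrix.map_mul, Units.inv_mul,
      Matrix.map_one _ (map_zero _) (map_one _)]
  have hrel' : Matrix.diagonal ![a, b] * N = N ^ q * Matrix.diagonal ![a, b] := by
    have hpow : N ^ q = ((u⁻¹ : (Mat A)ˣ) : Mat A) * r T.σ ^ q * u := by
      rw [hN, hcdef, Units.conj_pow' u]
    rw [hpow, ← hcF]
    show ((_ : Mat A) * r T.F * u) * (_ * r T.σ * u) = _ * (_ * r T.F * u)
    simp only [mul_assoc, Units.mul_inv_cancel_left]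
    rw [← mul_assoc (r T.F), hrel, mul_assoc]
  have hqres : (q : ResidueField A) = 1 := by
    obtain ⟨d, hd'⟩ := hq1
    rw [show q = p * d + 1 by have := hq.two_le; omega, Nat.cast_add, Nat.cast_mul,
      ← map_natCast (residue A) p, (residue_eq_zero_iff _).2 hpA, zero_mul, zero_add, Nat.cast_one]
  obtain ⟨h, h', e, e', eh, eh'⟩ := pow_offdiag_eq hNres q
  have hN01 : N 0 1 = 0 := by
    have := congrFun (congrFun hrel' 0) 1
    simp only [Matrix.diagonal_mul, Matrix.mul_diagonal, Matrix.cons_val_zero,
      Matrix.cons_val_one, e] at this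
    have hu' : IsUnit (a - h * b) := notMem_maximalIdeal.1 fun hm => hαβ (by
      rw [← residue_eq_zero_iff, map_sub, map_mul, eh, hqres, one_mul, ha, hb, sub_eq_zero] at hm
      exact hm)
    exact hu'.mul_left_eq_zero.1 (by linear_combination this)
  have hN10 : N 1 0 = 0 := by
    have := congrFun (congrFun hrel' 1) 0
    simp only [Matrix.diagonal_mul, Matrix.mul_diagonal, Matrix.cons_val_zero,
      Matrix.cons_val_one, e'] at this
    have hu' : IsUnit (b - h' * a) := notMem_maximalIdeal.1 fun hm => hαβ.symm (by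
      rw [← residue_eq_zero_iff, map_sub, map_mul, eh', hqres, one_mul, ha, hb, sub_eq_zero] at hm
      exact hm)
    exact hu'.mul_left_eq_zero.1 (by linear_combination this)
  have hNdiag : N = Matrix.diagonal ![N 0 0, N 1 1] := by
    ext s t
    fin_cases s <;> fin_cases t <;> simp [hN01, hN10]
  have hσF : r T.F * r T.σ = r T.σ * r T.F := by
    have h1 : c T.F * N = N * c T.F := by
      rw [hcF, hNdiag, Matrix.diagonal_mul_diagonal, Matrix.diagonal_mul_diagonal]
      simp only [mul_comm]
    have h2 := congrArg (fun z : Mat A => (u : Mat A) * z * ((u⁻¹ : (Mat A)ˣ) : Mat A)) h1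
    simpa [hcdef, hN, mul_assoc] using h2
  have hdiag : ∀ τ ∈ T.A.decompositionSubgroup ℚ,
      c τ = Matrix.diagonal ![c τ 0 0, c τ 1 1] := by
    intro τ hτ
    have hcomm := T.intertwine hp hq hpq hpA hr htame hr htame hσF rfl hτ
    have h1 : Matrix.diagonal ![a, b] * c τ = c τ * Matrix.diagonal ![a, b] := by
      rw [← hcF]
      show ((_ : Mat A) * r T.F * u) * (_ * r τ * u) = (_ * r τ * u) * (_ * r T.F * u)
      simp only [mul_assoc, Units.mul_inv_cancel_left]
      rw [← mul_assoc (r T.F), hcomm, mul_assoc]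
    have hu' : IsUnit (a - b) := notMem_maximalIdeal.1 fun hm => hαβ (by
      rw [← residue_eq_zero_iff, map_sub, ha, hb, sub_eq_zero] at hm; exact hm)
    have h01 := congrFun (congrFun h1 0) 1
    have h10 := congrFun (congrFun h1 1) 0
    simp only [Matrix.diagonal_mul, Matrix.mul_diagonal, Matrix.cons_val_zero,
      Matrix.cons_val_one] at h01 h10
    have z01 : c τ 0 1 = 0 := hu'.mul_left_eq_zero.1 (by linear_combination h01)
    have z10 : c τ 1 0 = 0 := hu'.mul_left_eq_zero.1 (by linear_combination -h10)
    ext s t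
    fin_cases s <;> fin_cases t <;> simp [z01, z10]
  let χ : Fin 2 → (T.A.decompositionSubgroup ℚ →* Aˣ) := fun s => MonoidHom.toHomUnits
    { toFun := fun τ => c (τ : Γℚ) s s
      map_one' := by simp [hcdef]
      map_mul' := fun x y => by
        rw [Subgroup.coe_mul, hcmul, hdiag _ x.2, hdiag _ y.2, Matrix.diagonal_mul_diagonal]
        fin_cases s <;> simp }
  refine ⟨u, χ 0, χ 1, fun τ => hdiag _ τ.2, ?_, ?_, fun τ hτ => ?_⟩
  · show residue A (c T.F 0 0) = α
    rw [hcF]; simpa using ha
  · show residue A (c T.F 1 1) = β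
    rw [hcF]; simpa using hb
  · have hres : ∀ s, residue A (c (τ : Γℚ) s s) = 1 := fun s => by
      rw [hτ]; simpa using congrFun (congrFun hNres s) s
    have hpow : ∀ s, χ s τ ^ (q - 1) = 1 := fun s => by
      have hchain : ∀ n : ℕ, (N ^ n) s s = (N s s) ^ n := fun n => by
        conv_lhs => rw [hNdiag, Matrix.diagonal_pow, Matrix.diagonal_apply_eq, Pi.pow_apply]
        fin_cases s <;> rfl
      have hd := congrFun (congrFun hrel' s) s
      rw [Matrix.diagonal_mul, Matrix.mul_diagonal, hchain] at hd
      apply mul_left_cancel (a := χ s τ)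
      rw [← pow_succ', Nat.sub_add_cancel hq.one_lt.le, mul_one]
      refine Units.ext ?_
      rw [Units.val_pow_eq_pow_val]
      show c (τ : Γℚ) s s ^ q = c (τ : Γℚ) s s
      rw [hτ]
      have hsu : IsUnit (![a, b] s) := by
        fin_cases s
        · exact hab.1
        · exact hab.2
      exact (hsu.mul_left_cancel (hd.trans (mul_comm _ _))).symm
    exact ⟨hpow 0, hpow 1, hres 0, hres 1⟩

end Fermat.Agent.RT
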