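import Fermat.Agent.RT.LocalQ.Decomposition
import Fermat.Agent.Density.PlacesConj
import Fermat.Agent.Deformation.Matrix
import Fermat.Prelude.Def_GaloisRep_LocalConditions
import Mathlib.RingTheory.AdicCompletion.Basic
import Mathlib.LinearAlgebra.Matrix.CharP

/-!
# Adic matrix representations on the decomposition group at `q ≠ p`

For a continuous `r : Γ →* Mat A` whose residual inertia image at `q` is a `p`-group: the exact
relation `r F * r σ = r σ ^ q * r F`, congruence to `r σ ^ a * r F ^ i` modulo every power of the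
maximal ideal on the decomposition group, and the consequences of this.
-/

set_option autoImplicit false

noncomputable section

open scoped Pointwise
open IsLocalRing

namespace Fermat.Agent.RT

open Deformation (Mat IsCont matOf mapRep)

local notation "Qb" => AlgebraicClosure ℚ
local notation "Γℚ" => (AlgebraicClosure ℚ ≃ₐ[ℚ] AlgebraicClosure ℚ)

section Entries

variable {A : Type} [CommRing A]

theorem entries_mul_mem {I J : Ideal A} {M N : Mat A} (hM : ∀ i j, M i j ∈ I)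
    (hN : ∀ i j, N i j ∈ J) (i j : Fin 2) : (M * N) i j ∈ I * J := by
  rw [Matrix.mul_apply]
  exact Ideal.sum_mem _ fun l _ => Ideal.mul_mem_mul (hM i l) (hN l j)

theorem entries_pow_prime_sub_one_mem {m : Ideal A} {p : ℕ} (hp : (p : A) ∈ m) {n : ℕ}
    (hn : 1 ≤ n) {X : Mat A} (hX : ∀ i j, (X - 1) i j ∈ m ^ n) (i j : Fin 2) :
    (X ^ p - 1) i j ∈ m ^ (n + 1) := by
  have hX1 : ∀ k : ℕ, ∀ i j, (X ^ k - 1) i j ∈ m := by
    intro k i j
    rw [← geom_sum_mul]
    have h := entries_mul_mem (I := ⊤) (fun a b => Submodule.mem_top) hX i j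
      (M := ∑ i ∈ Finset.range k, X ^ i)
    exact Ideal.pow_le_self (by omega) (Ideal.mul_le_right h)
  have hS : ∀ i j, (∑ k ∈ Finset.range p, X ^ k) i j ∈ m := by
    intro i j
    have e : ∑ k ∈ Finset.range p, X ^ k =
        ∑ k ∈ Finset.range p, (X ^ k - 1) + (p : Mat A) := by
      simp [Finset.sum_sub_distrib]
    rw [e, Matrix.add_apply, Matrix.sum_apply]
    refine add_mem (sum_mem fun k _ => hX1 k i j) ?_
    rw [Matrix.natCast_apply]
    split_ifs
    · exact hp
    · simp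
  rw [← geom_sum_mul, pow_succ']
  exact entries_mul_mem hS hX i j

theorem map_mk_eq_one_iff {I : Ideal A} {X : Mat A} :
    X.map (Ideal.Quotient.mk I) = 1 ↔ ∀ i j, (X - 1) i j ∈ I := by
  rw [← Matrix.map_one (Ideal.Quotient.mk I) (map_zero _) (map_one _), ← Matrix.ext_iff]
  simp only [Matrix.map_apply, Matrix.sub_apply, Ideal.Quotient.eq]

theorem eq_of_forall_map_mk_eq [IsLocalRing A] [IsHausdorff (maximalIdeal A) A] {X Y : Mat A}
    (h : ∀ n : ℕ, X.map (Ideal.Quotient.mk (maximalIdeal A ^ n)) =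
      Y.map (Ideal.Quotient.mk (maximalIdeal A ^ n))) : X = Y := by
  refine Matrix.ext fun i j => sub_eq_zero.1 (IsHausdorff.haus ‹_› _ fun n => ?_)
  rw [SModEq.zero, smul_eq_mul, Ideal.mul_top]
  have := congrFun (congrFun (h n) i) j
  exact Ideal.Quotient.eq.1 this

end Entries

section Local

variable {A : Type} [CommRing A] [IsLocalRing A] {p q : ℕ}

/-- The residual inertia image at the place is a `p`-group. -/
def IsResTame (p : ℕ) (P : ValuationSubring Qb) (r : Γℚ →* Mat A) : Prop :=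
  ∀ τ ∈ P.inertiaSubgroupIn ℚ, ∃ j : ℕ, (r τ ^ p ^ j).map (residue A) = 1

theorem IsResTame.exists_pow_sub_one_mem {P : ValuationSubring Qb} {r : Γℚ →* Mat A}
    (h : IsResTame p P r) (hp : (p : A) ∈ maximalIdeal A) {τ : Γℚ}
    (hτ : τ ∈ P.inertiaSubgroupIn ℚ) (n : ℕ) :
    ∃ j : ℕ, ∀ i k, (r τ ^ p ^ j - 1) i k ∈ maximalIdeal A ^ n := by
  suffices ∃ j : ℕ, ∀ i k, (r τ ^ p ^ j - 1) i k ∈ maximalIdeal A ^ (n + 1) from
    this.imp fun j hj i k => Ideal.pow_le_pow_right (Nat.le_succ n) (hj i k)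
  induction n with
  | zero =>
    obtain ⟨j, hj⟩ := h τ hτ
    exact ⟨j, fun i k => by rw [pow_one]; exact map_mk_eq_one_iff.1 hj i k⟩
  | succ n ih =>
    obtain ⟨j, hj⟩ := ih
    exact ⟨j + 1, fun i k => by
      rw [pow_succ p, pow_mul]
      exact entries_pow_prime_sub_one_mem hp (Nat.le_add_left 1 n) hj i k⟩

/-- Reduction of a matrix representation modulo `m^n`, with values in the units. -/
def levelHom (r : Γℚ →* Mat A) (n : ℕ) : Γℚ →* (Mat (A ⧸ maximalIdeal A ^ n))ˣ :=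
  (mapRep (Ideal.Quotient.mk (maximalIdeal A ^ n)) r).toHomUnits

theorem val_levelHom (r : Γℚ →* Mat A) (n : ℕ) (τ : Γℚ) :
    ((levelHom r n τ : (Mat (A ⧸ maximalIdeal A ^ n))ˣ) : Mat (A ⧸ maximalIdeal A ^ n)) =
      (r τ).map (Ideal.Quotient.mk (maximalIdeal A ^ n)) := rfl

theorem isTameAt_levelHom (hp : (p : A) ∈ maximalIdeal A) {P : ValuationSubring Qb}
    {r : Γℚ →* Mat A} (hr : IsCont r) (h : IsResTame p P r) (n : ℕ) :
    IsTameAt p P (levelHom r n) where
  finite_level := by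
    obtain ⟨L, hL, h1⟩ := hr n
    exact ⟨L, hL, fun τ hτ => Units.ext (map_mk_eq_one_iff.2 (h1 τ hτ))⟩
  inertia_pow := fun τ hτ => by
    obtain ⟨j, hj⟩ := h.exists_pow_sub_one_mem hp hτ n
    exact ⟨j, by rw [← map_pow]; exact Units.ext (map_mk_eq_one_iff.2 (by rw [map_pow]; exact hj))⟩

theorem IsTameAt.prod {G H : Type*} [Group G] [Group H] {P : ValuationSubring Qb} {f : Γℚ →* G}
    {g : Γℚ →* H} (hf : IsTameAt p P f) (hg : IsTameAt p P g) : IsTameAt p P (f.prod g) where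
  finite_level := by
    obtain ⟨L, hL, h1⟩ := hf.finite_level
    obtain ⟨K, hK, h2⟩ := hg.finite_level
    exact ⟨L ⊔ K, inferInstance, fun τ hτ => Prod.ext
      (h1 τ fun x hx => hτ x ((le_sup_left : L ≤ L ⊔ K) hx))
      (h2 τ fun x hx => hτ x ((le_sup_right : K ≤ L ⊔ K) hx))⟩
  inertia_pow := fun τ hτ => by
    obtain ⟨i, hi⟩ := hf.inertia_pow τ hτ
    obtain ⟨j, hj⟩ := hg.inertia_pow τ hτ
    exact ⟨i + j, Prod.ext (by rw [Prod.pow_fst, pow_add, pow_mul]; simp [hi])
      (by rw [Prod.pow_snd, pow_add, mul_comm, pow_mul]; simp [hj])⟩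

namespace TamePair

variable (T : TamePair p q) {r r₁ r₂ : Γℚ →* Mat A}

/-- The tame relation for an adic representation. -/
theorem adic_relation [IsHausdorff (maximalIdeal A) A] (hp : p.Prime) (hq : q.Prime) (hpq : p ≠ q)
    (hpA : (p : A) ∈ maximalIdeal A) (hr : IsCont r) (h : IsResTame p T.A r) :
    r T.F * r T.σ = r T.σ ^ q * r T.F := by
  refine eq_of_forall_map_mk_eq fun n => ?_
  have := congrArg Units.val (T.map_F_mul_σ hp hq hpq (isTameAt_levelHom hpA hr h n))
  simp only [Units.val_mul, Units.val_pow_eq_pow_val, val_levelHom] at this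
  simpa only [← RingHom.mapMatrix_apply, map_mul, map_pow] using this

/-- On the decomposition group two representations are congruent modulo `m^n` to the same word
in `σ` and `F`. -/
theorem exists_word (hp : p.Prime) (hq : q.Prime) (hpq : p ≠ q)
    (hpA : (p : A) ∈ maximalIdeal A) (hr₁ : IsCont r₁) (h₁ : IsResTame p T.A r₁)
    (hr₂ : IsCont r₂) (h₂ : IsResTame p T.A r₂) {τ : Γℚ}
    (hτ : τ ∈ T.A.decompositionSubgroup ℚ) (n : ℕ) :
    ∃ a i : ℕ,
      (r₁ τ).map (Ideal.Quotient.mk (maximalIdeal A ^ n)) =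
        (r₁ T.σ ^ a * r₁ T.F ^ i).map (Ideal.Quotient.mk (maximalIdeal A ^ n)) ∧
      (r₂ τ).map (Ideal.Quotient.mk (maximalIdeal A ^ n)) =
        (r₂ T.σ ^ a * r₂ T.F ^ i).map (Ideal.Quotient.mk (maximalIdeal A ^ n)) := by
  obtain ⟨a, i, hai⟩ := T.decomposition_eq hp hq hpq
    ((isTameAt_levelHom hpA hr₁ h₁ n).prod (isTameAt_levelHom hpA hr₂ h₂ n)) hτ
  refine ⟨a, i, ?_, ?_⟩
  · have := congrArg (fun z => (z.1 : Mat (A ⧸ maximalIdeal A ^ n))) hai
    simp only [MonoidHom.prod_apply, Prod.fst_mul, Prod.pow_fst, Units.val_mul,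
      Units.val_pow_eq_pow_val, val_levelHom] at this
    simpa only [← RingHom.mapMatrix_apply, map_mul, map_pow] using this
  · have := congrArg (fun z => (z.2 : Mat (A ⧸ maximalIdeal A ^ n))) hai
    simp only [MonoidHom.prod_apply, Prod.snd_mul, Prod.pow_snd, Units.val_mul,
      Units.val_pow_eq_pow_val, val_levelHom] at this
    simpa only [← RingHom.mapMatrix_apply, map_mul, map_pow] using this

/-- An intertwiner at `σ` and `F` is an intertwiner on the whole decomposition group. -/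
theorem intertwine [IsHausdorff (maximalIdeal A) A] (hp : p.Prime) (hq : q.Prime) (hpq : p ≠ q)
    (hpA : (p : A) ∈ maximalIdeal A) (hr₁ : IsCont r₁) (h₁ : IsResTame p T.A r₁)
    (hr₂ : IsCont r₂) (h₂ : IsResTame p T.A r₂) {X : Mat A}
    (hσ : X * r₁ T.σ = r₂ T.σ * X) (hF : X * r₁ T.F = r₂ T.F * X) {τ : Γℚ}
    (hτ : τ ∈ T.A.decompositionSubgroup ℚ) : X * r₁ τ = r₂ τ * X := by
  refine eq_of_forall_map_mk_eq fun n => ?_
  obtain ⟨a, i, e₁, e₂⟩ := T.exists_word hp hq hpq hpA hr₁ h₁ hr₂ h₂ hτ n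
  have hw : X * (r₁ T.σ ^ a * r₁ T.F ^ i) = r₂ T.σ ^ a * r₂ T.F ^ i * X := by
    have h1 : SemiconjBy X (r₁ T.σ ^ a) (r₂ T.σ ^ a) := SemiconjBy.pow_right hσ a
    have h2 : SemiconjBy X (r₁ T.F ^ i) (r₂ T.F ^ i) := SemiconjBy.pow_right hF i
    exact (h1.mul_right h2).eq
  rw [Matrix.map_mul, e₁, ← Matrix.map_mul, hw, Matrix.map_mul, ← e₂, ← Matrix.map_mul]

/-- Two representations agreeing at `σ` and `F` agree on the decomposition group. -/
theorem eq_on_decomposition [IsHausdorff (maximalIdeal A) A] (hp : p.Prime) (hq : q.Prime)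
    (hpq : p ≠ q) (hpA : (p : A) ∈ maximalIdeal A) (hr₁ : IsCont r₁) (h₁ : IsResTame p T.A r₁)
    (hr₂ : IsCont r₂) (h₂ : IsResTame p T.A r₂) (hσ : r₁ T.σ = r₂ T.σ) (hF : r₁ T.F = r₂ T.F)
    {τ : Γℚ} (hτ : τ ∈ T.A.decompositionSubgroup ℚ) : r₁ τ = r₂ τ := by
  simpa using T.intertwine hp hq hpq hpA hr₁ h₁ hr₂ h₂ (X := 1) (by simpa using hσ)
    (by simpa using hF) hτ

/-- Inertia at every place over `q` is killed as soon as `σ` is. -/
theorem eq_one_of_σ [IsHausdorff (maximalIdeal A) A] (hp : p.Prime) (hq : q.Prime) (hpq : p ≠ q)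
    (hpA : (p : A) ∈ maximalIdeal A) (hr : IsCont r) (h : IsResTame p T.A r)
    (hσ : r T.σ = 1) {P : ValuationSubring Qb} (hP : P.LiesOverPrime q) {τ : Γℚ}
    (hτ : τ ∈ P.inertiaSubgroupIn ℚ) : r τ = 1 := by
  have key : ∀ s ∈ T.A.inertiaSubgroupIn ℚ, r s = 1 := by
    intro s hs
    refine eq_of_forall_map_mk_eq fun n => ?_
    obtain ⟨b, hb⟩ := T.inertia_eq_pow hp hq hpq (isTameAt_levelHom hpA hr h n) hs
    have := congrArg Units.val hb
    simp only [Units.val_pow_eq_pow_val, val_levelHom, hσ] at this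
    rw [this, ← RingHom.mapMatrix_apply, map_one, one_pow]
  obtain ⟨a, rfl⟩ := Density.exists_smul_eq hq T.hA hP
  have h1 := key _ (Density.conj_inv_mem_inertiaSubgroupIn hτ)
  calc r τ = r a * r (a⁻¹ * τ * a) * r a⁻¹ := by rw [← map_mul, ← map_mul]; group
    _ = 1 := by rw [h1, mul_one, ← map_mul, mul_inv_cancel, map_one]

end TamePair

/-- A residual representation with trivial inertia is residually tame. -/
theorem isResTame_of_residual_eq_one {P : ValuationSubring Qb} {r : Γℚ →* Mat A}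
    (h : ∀ τ ∈ P.inertiaSubgroupIn ℚ, (r τ).map (residue A) = 1) : IsResTame p P r :=
  fun τ hτ => ⟨0, by rw [pow_zero, pow_one]; exact h τ hτ⟩

/-- A residually unipotent inertia image is residually tame. -/
theorem isResTame_of_residual_sq_eq_zero (hp : p.Prime) (hpA : (p : A) ∈ maximalIdeal A)
    {P : ValuationSubring Qb} {r : Γℚ →* Mat A}
    (h : ∀ τ ∈ P.inertiaSubgroupIn ℚ, ((r τ).map (residue A) - 1) ^ 2 = 0) : IsResTame p P r := by
  intro τ hτ
  refine ⟨1, ?_⟩
  have : CharP (ResidueField A) p := (CharP.charP_iff_prime_eq_zero hp).2 (by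
    rw [← map_natCast (residue A), residue_eq_zero_iff]; exact hpA)
  have := Fact.mk hp
  rw [pow_one, ← RingHom.mapMatrix_apply, map_pow, RingHom.mapMatrix_apply, ← sub_eq_zero]
  have e := sub_pow_char_of_commute (x := (r τ).map (residue A)) (y := 1) (p := p)
    (Commute.one_right _)
  rw [one_pow] at e
  rw [← e]
  exact pow_eq_zero_of_le hp.two_le (h τ hτ)

end Local

end Fermat.Agent.RT
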